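import Mathlib
import Fermat.Agent.S24.DefsB
import Fermat.Agent.S24.ConvLaurent
import Fermat.Prelude.Def_EllipticCurve_FrobeniusTrace
import Fermat.Prelude.Def_FLTPrelim_Ramification

/-!
# GAL/Geo : the Kummer model of the torsion of `J₀(N)`

`F = FN N = Qbar (j(q^d) : d ∣ N) ⊆ Qbar((q))`.
`Hn N n` : the group of `h ∈ Qbar((q))ˣ` with `h ^ n ∈ F` and `n ∣ ord_v (h ^ n)` for all places.
`Funits N` : `Fˣ`.  `Hn N n / Funits N` is the model of `J₀(N)[n]`.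
`galU σ` : coefficientwise Galois action.  `Tmul ℓ` : multiplicative Hecke operator
`h ↦ h(q^ℓ) * ∏_{ζ^ℓ = 1} h(ζ q^{1/ℓ})`.
-/

set_option autoImplicit false

namespace Fermat.Agent.GAL.Geo

open ModularCurve AlgebraicCurve Fermat.Agent.S24

noncomputable section

/-- Laurent series over `Qbar`. -/
abbrev LS : Type := LaurentSeries Kbar

/-- The absolute Galois group of `ℚ`. -/
abbrev GQ : Type := Kbar ≃ₐ[ℚ] Kbar

/-- `Fˣ` inside `Qbar((q))ˣ`. -/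
def Funits (N : ℕ) : Subgroup LSˣ where
  carrier := {h | (h : LS) ∈ modularFunctionFieldBar N}
  mul_mem' {a b} ha hb := by
    show ((a * b : LSˣ) : LS) ∈ modularFunctionFieldBar N
    rw [Units.val_mul]; exact mul_mem ha hb
  one_mem' := by
    show ((1 : LSˣ) : LS) ∈ modularFunctionFieldBar N
    rw [Units.val_one]; exact one_mem _
  inv_mem' {a} ha := by
    show ((a⁻¹ : LSˣ) : LS) ∈ modularFunctionFieldBar N
    rw [Units.val_inv_eq_inv_val]; exact inv_mem ha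

theorem mem_Funits {N : ℕ} {h : LSˣ} : h ∈ Funits N ↔ (h : LS) ∈ modularFunctionFieldBar N :=
  Iff.rfl

/-- All orders of `u ∈ F` are divisible by `n`. -/
def DivBy (N n : ℕ) (u : FN N) : Prop := ∀ v : Place Kbar (FN N), (n : ℤ) ∣ v.ord u

theorem DivBy.mul {N n : ℕ} {u u' : FN N} (hu0 : u ≠ 0) (hu0' : u' ≠ 0) (hu : DivBy N n u)
    (hu' : DivBy N n u') : DivBy N n (u * u') := fun v => by
  rw [v.ord_mul hu0 hu0']; exact dvd_add (hu v) (hu' v)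

theorem DivBy.inv {N n : ℕ} {u : FN N} (hu : DivBy N n u) : DivBy N n u⁻¹ := fun v => by
  rw [v.ord_inv]; exact (dvd_neg).mpr (hu v)

theorem DivBy.one (N n : ℕ) : DivBy N n 1 := fun v => by rw [v.ord_one]; exact dvd_zero _

theorem DivBy.pow_self {N : ℕ} (n : ℕ) (u : FN N) : DivBy N n (u ^ n) := fun v => by
  have := v.ord_zpow u n
  rw [zpow_natCast] at this
  rw [this]; exact dvd_mul_right _ _

/-- Kummer generators of exponent `n`. -/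
def Hn (N n : ℕ) : Subgroup LSˣ where
  carrier := {h | ∃ u : FN N, (u : LS) = (h : LS) ^ n ∧ DivBy N n u}
  mul_mem' {a b} := by
    rintro ⟨u, hu, hd⟩ ⟨u', hu', hd'⟩
    have h0 : u ≠ 0 := fun h => by
      rw [h] at hu
      exact (pow_ne_zero n a.ne_zero) hu.symm
    have h0' : u' ≠ 0 := fun h => by
      rw [h] at hu'
      exact (pow_ne_zero n b.ne_zero) hu'.symm
    refine ⟨u * u', ?_, hd.mul h0 h0' hd'⟩
    rw [Units.val_mul, mul_pow, ← hu, ← hu']; rfl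
  one_mem' := ⟨1, by simp, DivBy.one N n⟩
  inv_mem' {a} := by
    rintro ⟨u, hu, hd⟩
    refine ⟨u⁻¹, ?_, hd.inv⟩
    rw [Units.val_inv_eq_inv_val, inv_pow, ← hu]; rfl

theorem mem_Hn {N n : ℕ} {h : LSˣ} :
    h ∈ Hn N n ↔ ∃ u : FN N, (u : LS) = (h : LS) ^ n ∧ DivBy N n u := Iff.rfl

theorem Funits_le_Hn (N n : ℕ) : Funits N ≤ Hn N n := fun h hh =>
  ⟨(⟨(h : LS), hh⟩ : FN N) ^ n, rfl, DivBy.pow_self n _⟩

theorem Hn_le_mul (N n m : ℕ) : Hn N n ≤ Hn N (n * m) := by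
  rintro h ⟨u, hu, hd⟩
  refine ⟨u ^ m, by rw [pow_mul, ← hu]; rfl, fun v => ?_⟩
  have := v.ord_zpow u m
  rw [zpow_natCast] at this
  rw [this, Nat.cast_mul, mul_comm]
  exact mul_dvd_mul_left _ (hd v)

/-- Coefficientwise Galois action on `Qbar((q))ˣ`. -/
def galU (σ : GQ) : LSˣ →* LSˣ := Units.map (coeffMap (σ : Kbar →+* Kbar) : LS →* LS)

@[simp] theorem coe_galU (σ : GQ) (h : LSˣ) :
    ((galU σ h : LSˣ) : LS) = coeffMap (σ : Kbar →+* Kbar) (h : LS) := rfl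

/-- `h(q) ↦ h(q^ℓ)`. -/
def Vmul (ℓ : ℕ) [NeZero ℓ] : LSˣ →* LSˣ := Units.map (qExpand Kbar ℓ : LS →* LS)

@[simp] theorem coe_Vmul (ℓ : ℕ) [NeZero ℓ] (h : LSˣ) :
    ((Vmul ℓ h : LSˣ) : LS) = qExpand Kbar ℓ (h : LS) := rfl

instance fintypeRootsOfUnity (ℓ : ℕ) [NeZero ℓ] : Fintype (rootsOfUnity ℓ Kbar) :=
  Fintype.ofFinite _

/-- `h(q) ↦ ∏_{ζ^ℓ = 1} h(ζ q)`. -/
def rotProd (ℓ : ℕ) [NeZero ℓ] : LS →* LS where
  toFun h := ∏ ζ : rootsOfUnity ℓ Kbar, twist ((ζ : Kbarˣ) : Kbar) (Units.ne_zero _) h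
  map_one' := by simp
  map_mul' a b := by simp [Finset.prod_mul_distrib]

theorem rotProd_apply (ℓ : ℕ) [NeZero ℓ] (h : LS) :
    rotProd ℓ h = ∏ ζ : rootsOfUnity ℓ Kbar, twist ((ζ : Kbarˣ) : Kbar) (Units.ne_zero _) h := rfl

/-- `∑ a_k q^k ↦ ∑ a_{ℓ k} q^k`. -/
def contract (ℓ : ℕ) [NeZero ℓ] (s : LS) : LS :=
  HahnSeries.ofSuppBddBelow (fun k : ℤ => s.coeff ((ℓ : ℤ) * k)) (by
    refine ⟨min s.order 0, ?_⟩
    intro k hk
    by_contra hlt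
    rw [not_le] at hlt
    apply hk
    apply HahnSeries.coeff_eq_zero_of_lt_order
    have hℓ : (1 : ℤ) ≤ ℓ := by exact_mod_cast Nat.one_le_iff_ne_zero.mpr (NeZero.ne ℓ)
    have hk0 : k < 0 := lt_of_lt_of_le hlt (min_le_right _ _)
    have hks : k < s.order := lt_of_lt_of_le hlt (min_le_left _ _)
    nlinarith)

@[simp] theorem contract_coeff (ℓ : ℕ) [NeZero ℓ] (s : LS) (k : ℤ) :
    (contract ℓ s).coeff k = s.coeff ((ℓ : ℤ) * k) := rfl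

theorem contract_qExpand (ℓ : ℕ) [NeZero ℓ] (s : LS) : contract ℓ (qExpand Kbar ℓ s) = s := by
  ext k
  rw [contract_coeff, qExpand_coeff_mul]

theorem twist_rotProd (ℓ : ℕ) [NeZero ℓ] (ζ₀ : rootsOfUnity ℓ Kbar) (h : LS) :
    twist ((ζ₀ : Kbarˣ) : Kbar) (Units.ne_zero _) (rotProd ℓ h) = rotProd ℓ h := by
  rw [rotProd_apply, map_prod]
  refine Fintype.prod_equiv (Equiv.mulLeft ζ₀) _ _ fun ζ => ?_
  ext k
  simp only [twist_coeff, Equiv.coe_mulLeft, Subgroup.coe_mul, Units.val_mul, mul_zpow]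
  ring

theorem exists_primitive_rootsOfUnity (ℓ : ℕ) [NeZero ℓ] :
    ∃ ζ₀ : rootsOfUnity ℓ Kbar, IsPrimitiveRoot ((ζ₀ : Kbarˣ) : Kbar) ℓ := by
  have : NeZero ((ℓ : ℕ) : Kbar) := ⟨by exact_mod_cast NeZero.ne ℓ⟩
  obtain ⟨z, hz⟩ := HasEnoughRootsOfUnity.exists_primitiveRoot Kbar ℓ
  exact ⟨hz.toRootsOfUnity, by simpa using hz⟩

theorem rotProd_coeff_of_not_dvd (ℓ : ℕ) [NeZero ℓ] (h : LS) {k : ℤ} (hk : ¬ (ℓ : ℤ) ∣ k) :
    (rotProd ℓ h).coeff k = 0 := by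
  obtain ⟨ζ₀, hζ₀⟩ := exists_primitive_rootsOfUnity ℓ
  have h1 := congrArg (fun s : LS => s.coeff k) (twist_rotProd ℓ ζ₀ h)
  simp only [twist_coeff] at h1
  have h2 : ((ζ₀ : Kbarˣ) : Kbar) ^ k ≠ 1 := fun h => hk ((hζ₀.zpow_eq_one_iff_dvd k).mp h)
  have h3 : (((ζ₀ : Kbarˣ) : Kbar) ^ k - 1) * (rotProd ℓ h).coeff k = 0 := by
    rw [sub_mul, h1, one_mul, sub_self]
  exact (mul_eq_zero.mp h3).resolve_left (sub_ne_zero.mpr h2)

theorem qExpand_contract_rotProd (ℓ : ℕ) [NeZero ℓ] (h : LS) :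
    qExpand Kbar ℓ (contract ℓ (rotProd ℓ h)) = rotProd ℓ h := by
  ext k
  by_cases hk : (ℓ : ℤ) ∣ k
  · obtain ⟨m, rfl⟩ := hk
    rw [qExpand_coeff_mul, contract_coeff]
  · rw [qExpand_coeff_of_not_dvd ℓ _ hk, rotProd_coeff_of_not_dvd ℓ h hk]

/-- `h(q) ↦ ∏_{ζ^ℓ = 1} h(ζ q^{1/ℓ})` as a multiplicative map. -/
def UmulHom (ℓ : ℕ) [NeZero ℓ] : LS →* LS where
  toFun h := contract ℓ (rotProd ℓ h)
  map_one' := by
    apply qExpand_injective (R := Kbar) ℓ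
    rw [qExpand_contract_rotProd, map_one, map_one]
  map_mul' a b := by
    apply qExpand_injective (R := Kbar) ℓ
    rw [qExpand_contract_rotProd, map_mul, map_mul, qExpand_contract_rotProd,
      qExpand_contract_rotProd]

theorem qExpand_UmulHom (ℓ : ℕ) [NeZero ℓ] (h : LS) :
    qExpand Kbar ℓ (UmulHom ℓ h) = rotProd ℓ h := qExpand_contract_rotProd ℓ h

/-- `h(q) ↦ ∏_{ζ^ℓ = 1} h(ζ q^{1/ℓ})` on units. -/
def Umul (ℓ : ℕ) [NeZero ℓ] : LSˣ →* LSˣ := Units.map (UmulHom ℓ)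

@[simp] theorem coe_Umul (ℓ : ℕ) [NeZero ℓ] (h : LSˣ) :
    ((Umul ℓ h : LSˣ) : LS) = UmulHom ℓ (h : LS) := rfl

/-- The multiplicative Hecke operator `T_ℓ h = h(q^ℓ) ∏_{ζ^ℓ = 1} h(ζ q^{1/ℓ})`. -/
def Tmul (ℓ : ℕ) [NeZero ℓ] : LSˣ →* LSˣ := Vmul ℓ * Umul ℓ

theorem Tmul_apply (ℓ : ℕ) [NeZero ℓ] (h : LSˣ) : Tmul ℓ h = Vmul ℓ h * Umul ℓ h := rfl

/-! ### The statements exchanged between the chapters (as `Prop`s) -/

/-- All coefficients of `w - 1` lie in the maximal ideal of `A`. -/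
def CongOne (A : ValuationSubring Kbar) (w : LS) : Prop := ∀ k : ℤ, (w - 1).coeff k ∈ A.nonunits

/-- **KL** (the crux): a Kummer class which is `≡ 1` modulo a place over `ℓ ∤ n N` is trivial. -/
def KLStatement (N n ℓ : ℕ) : Prop :=
  ∀ A : ValuationSubring Kbar, A.LiesOverPrime ℓ → ∀ u : FN N, u ≠ 0 → DivBy N n u →
    CongOne A (u : LS) → ∃ w : FN N, u = w ^ n

/-- Inertia at `ℓ` acts trivially on `Hn N n / Fˣ`. -/
def InertiaTrivial (N n ℓ : ℕ) : Prop :=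
  ∀ A : ValuationSubring Kbar, A.LiesOverPrime ℓ → ∀ σ ∈ A.inertiaSubgroupIn ℚ,
    ∀ h ∈ Hn N n, galU σ h / h ∈ Funits N

/-- The Eichler-Shimura relation `σ² - T_ℓ σ + ℓ = 0` on `Hn N n / Fˣ`. -/
def EichlerShimuraRel (N n ℓ : ℕ) [NeZero ℓ] : Prop :=
  ∀ A : ValuationSubring Kbar, A.LiesOverPrime ℓ → ∀ σ : GQ, A.IsFrobeniusAt σ ℓ →
    ∀ h ∈ Hn N n, galU σ (galU σ h) * h ^ ℓ / Tmul ℓ (galU σ h) ∈ Funits N

end

end Fermat.Agent.GAL.Geo
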